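import Fermat.Agent.MR.PLC.SP.Abs
import Fermat.Agent.MR.PLC.End.Contract
import Fermat.Agent.GAL.Tors.Dict.PlaceOf
import Fermat.Agent.S33.GalP.Side

/-!
# MR / PLC / SP : the contract `SPStatement`

* `exists_fixed_place` : the `q`-adic place of a series model is fixed by the group;
* `spStatement : End.SPStatement`.
-/

set_option autoImplicit false
set_option linter.unusedSectionVars false
set_option synthInstance.maxHeartbeats 400000

noncomputable section

namespace Fermat.Agent.MR.PLC.SP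

open AlgebraicCurve ModularCurve Fermat.Agent.Lib.RR Fermat.Agent.S24 Fermat.Agent.GAL
  Fermat.Agent.GAL.RED Fermat.Agent.DR Fermat.Agent.DR.Abs Fermat.Agent.DR.Gal
  Fermat.Agent.S33.Cover Fermat.Agent.S33.GalP Fermat.Agent.GAL.Tors.Dict

/-- **The `q`-adic place of a series model.** -/
theorem exists_fixed_place {L E Γ : Type*} [Field L] [IsAlgClosed L] [Field E] [Algebra L E]
    [Group Γ] (S : Ser.SerModel L E Γ) {y : E} (hy : y ∉ Set.range (algebraMap L E)) :
    ∃ Q : Place L E, ∀ (γ : Γ) (z : E), Q.ord (S.Φ γ • z) = Q.ord z := by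
  -- an element with a non zero order
  have hex : ∃ x : E, ordOf (S.ι : E →+* LaurentSeries L) x ≠ 0 := by
    by_cases h0 : ordOf (S.ι : E →+* LaurentSeries L) y = 0
    · refine ⟨y - algebraMap L E ((S.ι y).coeff 0), ?_⟩
      have hne : y - algebraMap L E ((S.ι y).coeff 0) ≠ 0 := fun h =>
        hy ⟨_, (sub_eq_zero.1 h).symm⟩
      have hne' : S.ι (y - algebraMap L E ((S.ι y).coeff 0)) ≠ 0 := (map_ne_zero _).2 hne
      intro h1
      have h2 := mt HahnSeries.coeff_order_eq_zero.1 hne'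
      have h1' : (S.ι (y - algebraMap L E ((S.ι y).coeff 0))).order = 0 := h1
      rw [h1', map_sub, AlgHom.commutes, HahnSeries.coeff_sub,
        ModularCurve.algebraMap_laurentSeries_eq_single,
        HahnSeries.coeff_single_same, sub_self] at h2
      exact h2 rfl
    · exact ⟨y, h0⟩
  obtain ⟨x, hx⟩ := hex
  obtain ⟨Q, m, hm, -, hQ⟩ := exists_place_of_hom (k := L) (S.ι : E →+* LaurentSeries L) x hx
  refine ⟨Q, fun γ z => ?_⟩
  rcases eq_or_ne z 0 with rfl | hz
  · rw [smul_zero]
  have hz' : S.Φ γ • z ≠ 0 := by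
    intro h
    apply hz
    have := congrArg (fun t => (S.Φ γ)⁻¹ • t) h
    simpa using this
  have e1 := hQ z hz
  have e2 := hQ _ hz'
  have e3 : ordOf (S.ι : E →+* LaurentSeries L) (S.Φ γ • z)
      = ordOf (S.ι : E →+* LaurentSeries L) z := S.od_smul γ z
  rw [e1, e2] at e3
  exact mul_left_cancel₀ hm.ne' e3

/-- **The contract SP of block PLC.** -/
theorem spStatement : End.SPStatement := by
  intro M p _ _ hp hpM _ A hA _ _ E _ _ _ _ _ _ _ Sm hSm T' hC hS Nd' _ N' a₁ h' hbip τ w y hy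
  classical
  obtain ⟨π, hπ⟩ := exists_isLift hC hS (hSm.res τ)
    (fun i => TT_inertial A M p hp hpM hA τ.2 i)
  have hnc : algebraMap (FN (M * p)) E (Conc.xC M p) ∉ Set.range (algebraMap Kbar E) := by
    rintro ⟨c, hc⟩
    apply h'.nonconst w
    rw [← hc, ← T'.red_apply, T'.red_algebraMap]
    exact ⟨_, rfl⟩
  obtain ⟨Q, hQ⟩ := exists_fixed_place Sm hnc
  exact (inertial_of_fixed_place h' hbip hπ (by rw [hSm.res, gal_smul_xC]) Q (hQ τ) w y hy).1

end Fermat.Agent.MR.PLC.SP
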