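import Fermat.Agent.S33.GalP.Perm
import Fermat.Agent.S33.Cover.GoingDown
import Fermat.Agent.S36.Abs.Genus

/-!
# MR / PLC / SP : the value at a fixed point is equivariant (LEAF SP-5)
-/

set_option autoImplicit false
set_option linter.unusedSectionVars false

noncomputable section

namespace Fermat.Agent.MR.PLC.SP

open AlgebraicCurve Fermat.Agent.Lib.RR Fermat.Agent.GAL Fermat.Agent.GAL.RED Fermat.Agent.DR.Abs
  Fermat.Agent.S33.Cover Fermat.Agent.S33.GalP

variable {K E k : Type*} [Field K] [Field E] [Algebra K E] [Field k] {Ω : Type*} {Fb : Ω → Type*}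
  [∀ w, Field (Fb w)] [∀ w, Algebra k (Fb w)] [IsFF K E] [IsAlgClosed K] [∀ w, IsFF k (Fb w)]
  [IsAlgClosed k] [Fintype Ω] {T : MultiRed K E k Fb} {x : E}

/-- LEAF SP-5.  The value at a fixed point is equivariant.
PROOF.  `ev_spec Q hy` : `y = algebraMap c` or `0 < Q.ord (y - algebraMap c)`, `c = ev Q y`.  Apply `φ` : `smul_sub`, `SemilinearAut.smul_algebraMap`, `hQφ`; conclude with `ev_eq_of`. -/
theorem ev_smul_fixed (φ : SemilinearAut K E) (Q : Place K E)
    (hQφ : ∀ y : E, Q.ord (φ • y) = Q.ord y) {y : E} (hy : 0 ≤ Q.ord y) :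
    ev Q (φ • y) = SemilinearAut.baseAut φ (ev Q y) := by
  apply ev_eq_of
  rcases ev_spec Q hy with h | h
  · left
    conv_lhs => rw [h]
    exact SemilinearAut.smul_algebraMap φ _
  · right
    rw [← SemilinearAut.smul_algebraMap, ← smul_sub, hQφ]
    exact h

end Fermat.Agent.MR.PLC.SP
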