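import Fermat.Agent.S33.GalP.Perm
import Fermat.Agent.S33.Cover.GoingDown
import Fermat.Agent.S36.Abs.Genus

/-!
# MR / PLC / SP : from the global form to the full valuation rings (LEAF SP-6)
-/

set_option autoImplicit false
set_option linter.unusedSectionVars false

noncomputable section

namespace Fermat.Agent.MR.PLC.SP

open AlgebraicCurve Fermat.Agent.Lib.RR Fermat.Agent.GAL Fermat.Agent.GAL.RED Fermat.Agent.DR.Abs
  Fermat.Agent.S33.Cover Fermat.Agent.S33.GalP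

variable {K E k : Type*} [Field K] [Field E] [Algebra K E] [Field k] {Ω : Type*} {Fb : Ω → Type*}
  [∀ w, Field (Fb w)] [∀ w, Algebra k (Fb w)] [IsFF K E] [IsAlgClosed K] [∀ w, IsFF k (Fb w)]
  [IsAlgClosed k] [Fintype Ω] {T : MultiRed K E k Fb} {x : E}

/-- LEAF SP-6.  **From the global form to the full valuation rings.**  A semilinear automorphism which preserves `T.O` and all the reductions of the elements of `T.O` is inertial at every vertex.
PROOF.  Let `y ∈ O_w`; `y = 0` trivial (`smul_zero`).  `hC.exists_scale` : `c ≠ 0`, `c • y ∈ T.O`.  We may assume `c ∈ A` (if `c ∉ A` then `c⁻¹ ∈ A` and `y = c⁻¹ • c • y ∈ T.O` : take `c = 1`).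
`classical`; `hS (Pi.single w 1) (fun w' => if w' = w then 1 else c⁻¹) _` : `v` with `v ∈ O_w`, `red_w v = 1`, `c⁻¹ • v ∈ O_w'` (`w' ≠ w`).
So `v = c • c⁻¹ • v ∈ O_w'` : `v ∈ T.O`;  `v * y = (c⁻¹ • v) * (c • y) ∈ O_w'` (`smul_mul_smul_comm`, `inv_mul_cancel₀`, `one_smul`), `v * y ∈ O_w` : `v * y ∈ T.O`.
`φ • v ∈ T.O`, `red_w (φ • v) = 1`, so `(φ • v)⁻¹ ∈ O_w` (`RedData.inv_mem_of_red_ne_zero`) with reduction `1` (`red_inv`).
`φ • y = (φ • (v * y)) * (φ • v)⁻¹` (`smul_mul'`, `mul_inv_cancel_right₀`..), `red_mul`, `hred`, `red_mul` : `red_w (φ • y) = red_w (v * y) = red_w y`. -/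
theorem inertial_of_global (hC : T.IsCartesian) (hS : T.Sep) {φ : SemilinearAut K E}
    (hmem : ∀ y ∈ T.O, φ • y ∈ T.O)
    (hred : ∀ (w : Ω), ∀ y ∈ T.O, (T.R w).red (φ • y) = (T.R w).red y) (w : Ω) :
    Inertial (T.R w) φ := by
  classical
  have : Nonempty Ω := ⟨w⟩
  intro y hy
  by_cases hy0 : y = 0
  · subst hy0
    rw [smul_zero]
    exact ⟨hy, rfl⟩
  -- a scaling constant in `A`
  obtain ⟨c, hc, hcA, hcO⟩ : ∃ c : K, c ≠ 0 ∧ c ∈ T.A ∧ c • y ∈ T.O := by
    obtain ⟨c₀, hc₀, hcO, -⟩ := hC.exists_scale hy0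
    by_cases hA : c₀ ∈ T.A
    · exact ⟨c₀, hc₀, hA, hcO⟩
    · have hinv : c₀⁻¹ ∈ T.A := (T.A.mem_or_inv_mem c₀).resolve_left hA
      refine ⟨1, one_ne_zero, T.A.one_mem, ?_⟩
      have e : (1 : K) • y = algebraMap K E c₀⁻¹ * (c₀ • y) := by
        rw [one_smul, ← Algebra.smul_def, smul_smul, inv_mul_cancel₀ hc₀, one_smul]
      rw [e]
      exact T.O.mul_mem (T.algebraMap_mem hinv) hcO
  obtain ⟨v, hv⟩ := hS (Pi.single w 1) (fun w' => if w' = w then 1 else c⁻¹) (by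
    intro w'
    by_cases h : w' = w
    · simp [h]
    · simp [h, hc])
  have hvw : v ∈ (T.R w).O ∧ (T.R w).red v = 1 := by
    have := hv w
    simpa using this
  have hvw' : ∀ w', w' ≠ w → c⁻¹ • v ∈ (T.R w').O := by
    intro w' h
    have := (hv w').1
    simpa [h] using this
  have hvO : v ∈ T.O := by
    intro w'
    by_cases h : w' = w
    · subst h; exact hvw.1
    · have e : v = algebraMap K E c * (c⁻¹ • v) := by
        rw [← Algebra.smul_def, smul_smul, mul_inv_cancel₀ hc, one_smul]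
      rw [e]
      exact (T.R w').O.mul_mem _ _ (T.algebraMap_mem hcA w') (hvw' w' h)
  have hvyO : v * y ∈ T.O := by
    intro w'
    by_cases h : w' = w
    · subst h; exact (T.R w').O.mul_mem _ _ hvw.1 hy
    · have e : v * y = (c⁻¹ • v) * (c • y) := by
        rw [smul_mul_smul_comm, inv_mul_cancel₀ hc, one_smul]
      rw [e]
      exact (T.R w').O.mul_mem _ _ (hvw' w' h) (hcO w')
  have h1 : (T.R w).red (φ • v) = 1 := by rw [hred w v hvO, hvw.2]
  have h1ne : (T.R w).red (φ • v) ≠ 0 := by rw [h1]; exact one_ne_zero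
  have hinvO : (φ • v)⁻¹ ∈ (T.R w).O := (T.R w).inv_mem_of_red_ne_zero h1ne
  have hφv0 : φ • v ≠ 0 := by
    intro h0
    apply h1ne
    rw [h0, (T.R w).red_of_mem (T.R w).O.zero_mem]
    exact map_zero _
  have e : φ • y = (φ • (v * y)) * (φ • v)⁻¹ := by
    rw [smul_mul', mul_comm (φ • v), mul_inv_cancel_right₀ hφv0]
  have hvyφ : φ • (v * y) ∈ (T.R w).O := hmem _ hvyO w
  refine ⟨by rw [e]; exact (T.R w).O.mul_mem _ _ hvyφ hinvO, ?_⟩
  rw [e, (T.R w).red_mul hvyφ hinvO, hred w _ hvyO, (T.R w).red_inv, h1, inv_one, mul_one,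
    (T.R w).red_mul hvw.1 hy, hvw.2, one_mul]

end Fermat.Agent.MR.PLC.SP
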