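import Fermat.Agent.S33.GalP.Perm
import Fermat.Agent.S33.Cover.GoingDown
import Fermat.Agent.S36.Abs.Genus

/-!
# MR / PLC / SP : non adjacent components are separated by a regular function (LEAF SP-4)
-/

set_option autoImplicit false
set_option linter.unusedSectionVars false

noncomputable section

namespace Fermat.Agent.MR.PLC.SP

open AlgebraicCurve Fermat.Agent.Lib.RR Fermat.Agent.GAL Fermat.Agent.GAL.RED Fermat.Agent.DR.Abs
  Fermat.Agent.S33.Cover Fermat.Agent.S33.GalP

variable {K E k : Type*} [Field K] [Field E] [Algebra K E] [Field k] {Ω : Type*} {Fb : Ω → Type*}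
  [∀ w, Field (Fb w)] [∀ w, Algebra k (Fb w)] [IsFF K E] [IsAlgClosed K] [∀ w, IsFF k (Fb w)]
  [IsAlgClosed k] [Fintype Ω] {T : MultiRed K E k Fb} {x : E}

variable {Nd : Type*} [Fintype Nd]

/-- LEAF SP-4.  **Two non adjacent components are separated by a regular function.**
PROOF (`classical`).  `xb := T.red x`.  `exists_bounded_values' xb h.nonconst (fun i => Glued_brSet N i) _` (the branches are not poles: `Glued_ord_of_mem_brSet h.adapted i P hP` gives `ord = 0`) : `a₂`.
`a := a₂ + a₀`.  Values: `val i P := if ∃ e, (N.branch (Sum.inl e) = ⟨i, P⟩ ∧ N.i₂ e = w') ∨ (N.branch (Sum.inr e) = ⟨i, P⟩ ∧ N.i₁ e = w') then 1 else 0` ("the partner lies on `w'`") : `z₀`.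
`z := Function.update (Function.update z₀ w 0) w' 1`.  It is bounded (`BoundedBy`; `0` and `1` are in every `L(bipole ..)` : `Submodule.zero_mem`, and for `1` `mem_riemannRochSpace_iff`, `Place.ord_one`, `bipole_apply`
non negative) and glued: for a node `e` distinguish the cases `N.i₁ e = w`, `= w'`, other / `N.i₂ e = w`, `= w'`, other (`Function.update_apply`/`update_self`/`update_of_ne`, `ev_zero`, `ev_one`);
the cases `(w, w')` and `(w', w)` are excluded by `hadj`; in the case (other, other) both values are `0` by `h.inj` (a branch belongs to only one node: as in `S33.GalP.exists_glued_sep`);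
(other, `w'`) : value `1` at the first branch by definition; (other, `w`) : the value at the first branch is `0` since the only node through it is `e`, whose partner lies on `w ≠ w'`.
Then `(h.mem_iff a 0 (by omega) z).2 ⟨_, _⟩` gives `y ∈ L(bipole K x a 0) ∩ T.O` with `T.red y = z`;  `bipole K x a 0 = a • poleDiv x` (`bipole`, `zero_smul`, `add_zero`). -/
theorem exists_reg_sep {N : NodeData k Fb Nd} {a₀ : ℕ} (h : IsPreNodal T x N a₀) {w w' : Ω}
    (hne : w ≠ w')
    (hadj : ∀ e, ¬ (N.i₁ e = w ∧ N.i₂ e = w') ∧ ¬ (N.i₁ e = w' ∧ N.i₂ e = w)) :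
    ∃ y : E, IsReg T x y ∧ (T.R w).red y = 0 ∧ (T.R w').red y = 1 := by
  classical
  obtain ⟨a₂, ha₂⟩ := exists_bounded_values' (T.red x) h.nonconst (fun i => Glued_brSet N i)
    (fun i P hP => (Glued_ord_of_mem_brSet h.adapted i P hP).ge)
  let Q : (Σ i, Place k (Fb i)) → Prop := fun γ =>
    ∃ e, (N.branch (Sum.inl e) = γ ∧ N.i₂ e = w') ∨ (N.branch (Sum.inr e) = γ ∧ N.i₁ e = w')
  obtain ⟨z₀, hz₀, hv⟩ := ha₂ (a₂ + a₀) (by omega) (fun i P => if Q ⟨i, P⟩ then 1 else 0)
  have hQ1 : ∀ e, Q (N.branch (Sum.inl e)) ↔ N.i₂ e = w' := by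
    intro e
    constructor
    · rintro ⟨e', ⟨h1, h2⟩ | ⟨h1, h2⟩⟩
      · have := Sum.inl.inj (h.inj h1)
        subst this
        exact h2
      · exact absurd (h.inj h1) (by simp)
    · intro h1
      exact ⟨e, Or.inl ⟨rfl, h1⟩⟩
  have hQ2 : ∀ e, Q (N.branch (Sum.inr e)) ↔ N.i₁ e = w' := by
    intro e
    constructor
    · rintro ⟨e', ⟨h1, h2⟩ | ⟨h1, h2⟩⟩
      · exact absurd (h.inj h1) (by simp)
      · have := Sum.inr.inj (h.inj h1)
        subst this
        exact h2
    · intro h1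
      exact ⟨e, Or.inr ⟨rfl, h1⟩⟩
  have hv1 : ∀ e, ev (N.p₁ e) (z₀ (N.i₁ e)) = if N.i₂ e = w' then 1 else 0 := by
    intro e
    rw [hv _ _ (Glued_p₁_mem_brSet N e)]
    exact if_congr (hQ1 e) rfl rfl
  have hv2 : ∀ e, ev (N.p₂ e) (z₀ (N.i₂ e)) = if N.i₁ e = w' then 1 else 0 := by
    intro e
    rw [hv _ _ (Glued_p₂_mem_brSet N e)]
    exact if_congr (hQ2 e) rfl rfl
  set z : ∀ i, Fb i := Function.update (Function.update z₀ w 0) w' 1 with hzdef
  have hz1 : ∀ i, i = w' → z i = 1 := by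
    rintro i rfl
    exact Function.update_self _ _ _
  have hz0 : ∀ i, i = w → z i = 0 := by
    rintro i rfl
    rw [hzdef, Function.update_of_ne hne, Function.update_self]
  have hzo : ∀ i, i ≠ w → i ≠ w' → z i = z₀ i := by
    intro i h1 h2
    rw [hzdef, Function.update_of_ne h2, Function.update_of_ne h1]
  have hb : T.Bounded x (a₂ + a₀) 0 z := by
    intro i
    by_cases h1 : i = w'
    · rw [hz1 i h1]
      exact one_mem_L (bipole_nonneg _ _ _)
    · by_cases h2 : i = w
      · rw [hz0 i h2]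
        exact Submodule.zero_mem _
      · rw [hzo i h2 h1]
        exact hz₀ i
  have hA1 : ∀ e, ev (N.p₁ e) (z (N.i₁ e)) =
      if N.i₁ e = w' then 1 else if N.i₁ e = w then 0 else if N.i₂ e = w' then 1 else 0 := by
    intro e
    split_ifs with h1 h2 h3
    · rw [hz1 _ h1, ev_one]
    · rw [hz0 _ h2, ev_zero]
    · rw [hzo _ h2 h1, hv1, if_pos h3]
    · rw [hzo _ h2 h1, hv1, if_neg h3]
  have hA2 : ∀ e, ev (N.p₂ e) (z (N.i₂ e)) =
      if N.i₂ e = w' then 1 else if N.i₂ e = w then 0 else if N.i₁ e = w' then 1 else 0 := by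
    intro e
    split_ifs with h1 h2 h3
    · rw [hz1 _ h1, ev_one]
    · rw [hz0 _ h2, ev_zero]
    · rw [hzo _ h2 h1, hv2, if_pos h3]
    · rw [hzo _ h2 h1, hv2, if_neg h3]
  have hg : N.Glued 1 z := by
    intro e
    rw [hA1, hA2, Pi.one_apply, one_mul]
    obtain ⟨ha1, ha2⟩ := hadj e
    by_cases h1 : N.i₁ e = w'
    · by_cases h2 : N.i₂ e = w'
      · rw [if_pos h1, if_pos h2]
      · have h3 : N.i₂ e ≠ w := fun h3 => ha2 ⟨h1, h3⟩
        rw [if_pos h1, if_neg h2, if_neg h3, if_pos h1]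
    · by_cases h2 : N.i₁ e = w
      · have h3 : N.i₂ e ≠ w' := fun h3 => ha1 ⟨h2, h3⟩
        rw [if_neg h1, if_pos h2, if_neg h3, if_neg h1]
        simp
      · by_cases h3 : N.i₂ e = w'
        · rw [if_neg h1, if_neg h2, if_pos h3, if_pos h3]
        · rw [if_neg h1, if_neg h2, if_neg h3, if_neg h3, if_neg h1]
          simp
  obtain ⟨y, hyL, hyO, hred⟩ := (h.mem_iff (a₂ + a₀) 0 (by omega) z).2 ⟨hb, hg⟩
  refine ⟨y, ⟨hyO, a₂ + a₀, ?_⟩, ?_, ?_⟩
  · rw [← bipole_zero_right]
    exact hyL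
  · rw [← T.red_apply, hred]
    exact hz0 w rfl
  · rw [← T.red_apply, hred]
    exact hz1 w' rfl

end Fermat.Agent.MR.PLC.SP
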