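import Fermat.Agent.MR.PLC.SP.Lam
import Fermat.Agent.MR.PLC.SP.Sep
import Fermat.Agent.MR.PLC.SP.Fix
import Fermat.Agent.MR.PLC.SP.Inert

/-!
# MR / PLC / SP : a lift which fixes a point fixes all the vertices (abstract part)

`E / K` a function field, `T` a family of reductions, nodal (`IsPreNodal T x N a₀`).  `Q` a place of `E` which is not a pole of `x`, with `x(Q) ∈ A`.

* `ev_mem_A` (`Integral.lean`) : a function `y` which is integral for all the valuations and regular outside the poles of `x` (`IsReg T x y`) has an integral value at `Q`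
  (degree count: the fundamental inequality `∑ deg (red_w g)_∞ ≤ deg (g)_∞`);
* `lam T Q y = redA (y(Q))` (`Lam.lean`) is a ring homomorphism `Reg → k` which kills the functions with reduction `0` : "the specialisation of `Q`";
* `exists_vertex` : it factors through (at least) one component `w`;
* `exists_reg_sep` (`Sep.lean`) : two non adjacent components are separated by a regular function;
* `perm_eq_id` : a lift `φ` (`IsLift T' φ π`) which fixes `x` and `Q`, inertial on the constants, has `π = id`;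
* `inertial_of_fixed_place` : then `φ` is inertial (on the FULL valuation rings) at every vertex.

(The argument is due to helper49.)
-/

set_option autoImplicit false
set_option linter.unusedSectionVars false

noncomputable section

namespace Fermat.Agent.MR.PLC.SP

open AlgebraicCurve Fermat.Agent.Lib.RR Fermat.Agent.GAL Fermat.Agent.GAL.RED Fermat.Agent.DR.Abs
  Fermat.Agent.S33.Cover Fermat.Agent.S33.GalP

variable {K E k : Type*} [Field K] [Field E] [Algebra K E] [Field k] {ι G : Type*}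
  {Fb : ι → Type*} [∀ i, Field (Fb i)] [∀ i, Algebra k (Fb i)] {Nd : Type*}
  [IsFF K E] [IsAlgClosed K] [∀ i, IsFF k (Fb i)] [IsAlgClosed k] [Fintype ι] [Fintype G]
  [Fintype Nd]

/-- a lift which fixes the coordinate preserves the regular functions. -/
theorem IsLift_isReg {T' : MultiRed K E k (fun j : ι × G => Fb j.1)} {x : E}
    {φ : SemilinearAut K E} {π : ι → Equiv.Perm G} (hφ : IsLift T' φ π) (hx : φ • x = x) {y : E}
    (hy : IsReg T' x y) : IsReg T' x (φ • y) := by
  obtain ⟨hyO, a, hyL⟩ := hy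
  refine ⟨hφ.mem y hyO, a, ?_⟩
  have e : bipole K x a 0 = a • poleDiv (K := K) x := by
    rw [bipole, zero_smul, add_zero]
  rw [← e] at hyL ⊢
  exact smul_mem_L_bipole φ hx hyL

/-- a lift is inertial on the constants. -/
theorem IsLift_redA [Nonempty ι] [Nonempty G] {T' : MultiRed K E k (fun j : ι × G => Fb j.1)}
    {φ : SemilinearAut K E} {π : ι → Equiv.Perm G} (hφ : IsLift T' φ π) {a : K} (ha : a ∈ T'.A) :
    T'.redA (SemilinearAut.baseAut φ a) = T'.redA a := by
  obtain ⟨i⟩ := ‹Nonempty ι›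
  obtain ⟨g⟩ := ‹Nonempty G›
  have h1 := hφ.red i g (algebraMap K E a) (T'.algebraMap_mem ha)
  rw [SemilinearAut.smul_algebraMap, ← T'.red_apply, ← T'.red_apply, T'.red_algebraMap,
    T'.red_algebraMap] at h1
  exact (algebraMap k (Fb i)).injective h1

/-- the inverse of the coordinate is a coordinate. -/
theorem isPreNodal_inv {Ω : Type*} {Fc : Ω → Type*} [∀ w, Field (Fc w)] [∀ w, Algebra k (Fc w)]
    [∀ w, IsFF k (Fc w)] {T : MultiRed K E k Fc} {x : E} {N : NodeData k Fc Nd} {a₀ : ℕ}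
    (h : IsPreNodal T x N a₀) : IsPreNodal T x⁻¹ N a₀ where
  cart := h.cart
  sep := h.sep
  inj := h.inj
  nonconst := by
    rintro i ⟨c, hc⟩
    exact h.nonconst i ⟨c⁻¹, by rw [map_inv₀, hc, RedData.red_inv, inv_inv]⟩
  unit₁ := fun e => by rw [RedData.red_inv, Place.ord_inv, h.unit₁, neg_zero]
  unit₂ := fun e => by rw [RedData.red_inv, Place.ord_inv, h.unit₂, neg_zero]
  mem_iff := fun a b hab z => by
    rw [bipole_inv, h.mem_iff b a (by omega)]
    unfold MultiRed.Bounded
    simp only [RedData.red_inv, bipole_inv]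

/-- **A lift which fixes a point fixes all the vertices** (the point is not a pole of `x`, with an integral value). -/
theorem perm_eq_id_aux {T' : MultiRed K E k (fun j : ι × G => Fb j.1)} {x : E}
    {N' : NodeData k (fun j : ι × G => Fb j.1) Nd} {a₀ : ℕ} (h : IsPreNodal T' x N' a₀)
    (hbip : ∀ e, (N'.i₁ e).1 ≠ (N'.i₂ e).1)
    {φ : SemilinearAut K E} {π : ι → Equiv.Perm G} (hφ : IsLift T' φ π) (hx : φ • x = x)
    (Q : Place K E) (hQφ : ∀ y : E, Q.ord (φ • y) = Q.ord y) (hQ : 0 ≤ Q.ord x)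
    (hb : ev Q x ∈ T'.A) (i : ι) (g : G) : π i g = g := by
  have hne := h.cart.nonempty
  have : Nonempty ι := ⟨(Classical.choice hne).1⟩
  have : Nonempty G := ⟨(Classical.choice hne).2⟩
  have hG : Good T' x := ⟨h.sep, h.nonconst, S36.Abs.IsPreNodal.degree_eq h⟩
  obtain ⟨⟨i₀, g₀⟩, hw⟩ := exists_vertex hG h.cart Q hQ hb
  -- the vertex `(i₀, π⁻¹ g₀)` has the same property
  have hw' : ∀ y : E, IsReg T' x y → (T'.R (i₀, (π i₀).symm g₀)).red y = 0 → lam T' Q y = 0 := by
    intro y hy hy0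
    have h1 : (T'.R (i₀, g₀)).red (φ • y) = 0 := by
      have := hφ.red i₀ ((π i₀).symm g₀) y hy.1
      rw [Equiv.apply_symm_apply] at this
      rw [this, hy0]
    have h2 := hw (φ • y) (IsLift_isReg hφ hx hy) h1
    unfold lam at h2 ⊢
    rw [ev_smul_fixed φ Q hQφ (((isReg_iff T' x y).1 hy).2 Q hQ),
      IsLift_redA hφ (ev_mem_A hG Q hQ hb hy)] at h2
    exact h2
  refine rigid h hφ hx (i₀ := i₀) (g₀ := g₀) ?_ i g
  by_contra hcon
  have hne' : ((i₀, g₀) : ι × G) ≠ (i₀, (π i₀).symm g₀) := by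
    intro h0
    apply hcon
    have h1 : g₀ = (π i₀).symm g₀ := (Prod.ext_iff.1 h0).2
    conv_lhs => rw [h1]
    rw [Equiv.apply_symm_apply]
  obtain ⟨y, hy, hy0, hy1⟩ := exists_reg_sep h hne' (fun e => ⟨fun h0 => hbip e (by
    rw [h0.1, h0.2]), fun h0 => hbip e (by rw [h0.1, h0.2])⟩)
  have e1 := hw y hy hy0
  have e2 := hw' (1 - y) (IsReg.one.sub hy) (by
    rw [(T'.R _).red_sub (T'.R _).O.one_mem (hy.1 _), hy1, RedData.red_one, sub_self])
  have e3 := lam_add hG Q hQ hb hy (IsReg.one.sub hy)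
  rw [add_sub_cancel, lam_one, e1, e2, add_zero] at e3
  exact one_ne_zero e3

/-- **A lift which fixes a point fixes all the vertices.**  (If the point is a pole of `x`, or if the value of `x` is not integral, replace `x` by `x⁻¹`.) -/
theorem perm_eq_id {T' : MultiRed K E k (fun j : ι × G => Fb j.1)} {x : E}
    {N' : NodeData k (fun j : ι × G => Fb j.1) Nd} {a₀ : ℕ} (h : IsPreNodal T' x N' a₀)
    (hbip : ∀ e, (N'.i₁ e).1 ≠ (N'.i₂ e).1)
    {φ : SemilinearAut K E} {π : ι → Equiv.Perm G} (hφ : IsLift T' φ π) (hx : φ • x = x)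
    (Q : Place K E) (hQφ : ∀ y : E, Q.ord (φ • y) = Q.ord y) (i : ι) (g : G) : π i g = g := by
  have hx' : φ • x⁻¹ = x⁻¹ := by rw [smul_inv'', hx]
  by_cases hQ : 0 ≤ Q.ord x
  · by_cases hb : ev Q x ∈ T'.A
    · exact perm_eq_id_aux h hbip hφ hx Q hQφ hQ hb i g
    · have hb0 : ev Q x ≠ 0 := fun h0 => hb (h0 ▸ T'.A.zero_mem)
      obtain ⟨hx0, hord⟩ := (ev_ne_zero_iff Q hQ).1 hb0
      refine perm_eq_id_aux (isPreNodal_inv h) hbip hφ hx' Q hQφ ?_ ?_ i g
      · rw [Place.ord_inv, hord, neg_zero]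
      · rw [ev_inv Q hx0 hord]
        exact (T'.A.mem_or_inv_mem _).resolve_left hb
  · have hpos : 0 < Q.ord x⁻¹ := by
      rw [Place.ord_inv]
      omega
    refine perm_eq_id_aux (isPreNodal_inv h) hbip hφ hx' Q hQφ hpos.le ?_ i g
    rw [(ev_eq_zero_iff Q hpos.le).2 (Or.inr hpos)]
    exact T'.A.zero_mem

/-- **A lift which fixes a point is inertial at every vertex.** -/
theorem inertial_of_fixed_place {T' : MultiRed K E k (fun j : ι × G => Fb j.1)} {x : E}
    {N' : NodeData k (fun j : ι × G => Fb j.1) Nd} {a₀ : ℕ} (h : IsPreNodal T' x N' a₀)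
    (hbip : ∀ e, (N'.i₁ e).1 ≠ (N'.i₂ e).1)
    {φ : SemilinearAut K E} {π : ι → Equiv.Perm G} (hφ : IsLift T' φ π) (hx : φ • x = x)
    (Q : Place K E) (hQφ : ∀ y : E, Q.ord (φ • y) = Q.ord y) (w : ι × G) :
    Inertial (T'.R w) φ := by
  have hπ := perm_eq_id h hbip hφ hx Q hQφ
  refine inertial_of_global h.cart h.sep hφ.mem (fun w y hy => ?_) w
  have := hφ.red w.1 w.2 y hy
  rwa [hπ] at this

end Fermat.Agent.MR.PLC.SP
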