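import Fermat.Agent.S33.GalP.Perm
import Fermat.Agent.S33.Cover.GoingDown
import Fermat.Agent.S36.Abs.Genus

/-!
# MR / PLC / SP : divisor count (LEAF SP-1)
-/

set_option autoImplicit false
set_option linter.unusedSectionVars false

noncomputable section

namespace Fermat.Agent.MR.PLC.SP

open AlgebraicCurve Fermat.Agent.Lib.RR Fermat.Agent.GAL Fermat.Agent.GAL.RED Fermat.Agent.DR.Abs
  Fermat.Agent.S33.Cover Fermat.Agent.S33.GalP

variable {κ L : Type*} [Field κ] [Field L] [Algebra κ L] [IsFF κ L] [IsAlgClosed κ]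

/-- LEAF SP-1.  **Divisor count.**  `u` vanishes at `Q`, `z ∈ L(a (u)_∞)` vanishes at `Q`.  Then `deg (z / u ^ a)_∞ ≤ a deg (u)_∞ - 1`.
PROOF.  Pointwise inequality of divisors `poleDiv (z / u ^ a) + single Q 1 ≤ a • poleDiv u⁻¹`.  `ord_P (z / u ^ a) = ord_P z - a ord_P u` (`ord_div`, `ord_pow`).
From `hz` (`mem_riemannRochSpace_iff`, `Finsupp.smul_apply`, `poleDiv_apply`) : `0 ≤ ord_P z + a * max (- ord_P u) 0`.
* `ord_P u < 0` : `P ≠ Q`, `ord_P z ≥ a ord_P u`, so the left side is `0`, the right side is `a * max (ord_P u) 0 = 0`;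
* `0 ≤ ord_P u` : `0 ≤ ord_P z`; the left side is `≤ max (a ord_P u - ord_P z) 0 + [P = Q]`; at `P = Q` : `1 ≤ ord_Q z`, `1 ≤ ord_Q u`, `1 ≤ a` (`nlinarith`).
Then apply `Divisor.degree` (monotone: see how `S36/Abs/Genus.lean`, `DR/Abs/PoleBound.lean` do it, e.g. `Divisor.degree_le_degree`/`degree_mono`), `map_add`, `degree (single Q 1) = 1`
(`IsAlgClosed`: the places have degree one; grep `degree_single`), `map_nsmul`, `DR.Conc.degree_poleDiv_inv` (`DR/Conc/XiAbs.lean`; copy its 8 lines if the import is heavy). -/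
theorem degree_poleDiv_div_lt {u z : L} {a : ℕ} (Q : Place κ L) (hu0 : u ≠ 0) (hu : 0 < Q.ord u)
    (hz0 : z ≠ 0) (hz : z ∈ riemannRochSpace (a • poleDiv (K := κ) u)) (hzQ : 0 < Q.ord z)
    (ha : 0 < a) :
    Divisor.degree (poleDiv (K := κ) (z / u ^ a)) + 1
      ≤ a * Divisor.degree (poleDiv (K := κ) u) := by
  classical
  have hle : poleDiv (K := κ) (z / u ^ a) + Finsupp.single Q 1 ≤ a • poleDiv (K := κ) u⁻¹ := by
    intro P
    rw [Finsupp.add_apply, Finsupp.smul_apply, poleDiv_apply, poleDiv_apply, Place.ord_inv, neg_neg,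
      nsmul_eq_mul, RED.ord_div P hz0 (pow_ne_zero a hu0), RED.ord_pow]
    have hzP : -((a : ℤ) * max (-P.ord u) 0) ≤ P.ord z := by
      rw [mem_riemannRochSpace_iff] at hz
      rcases hz P with h | h
      · exact absurd h hz0
      · rwa [Finsupp.smul_apply, poleDiv_apply, nsmul_eq_mul] at h
    have ha1 : (1 : ℤ) ≤ a := by exact_mod_cast ha
    rcases lt_or_ge (P.ord u) 0 with h | h
    · have hPQ : Q ≠ P := by
        rintro rfl
        omega
      rw [Finsupp.single_eq_of_ne hPQ.symm, max_eq_right h.le, mul_zero]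
      rw [max_eq_left (by omega : (0 : ℤ) ≤ -P.ord u)] at hzP
      have h3 : (a : ℤ) * -P.ord u = -((a : ℤ) * P.ord u) := by ring
      rw [h3] at hzP
      rw [max_eq_right (by omega)]
      norm_num
    · rw [max_eq_right (by omega : -P.ord u ≤ 0), mul_zero] at hzP
      rw [max_eq_left h]
      have ht : 0 ≤ (a : ℤ) * P.ord u := mul_nonneg (by omega) h
      by_cases hPQ : Q = P
      · subst hPQ
        rw [Finsupp.single_eq_same]
        have ht1 : (a : ℤ) * 1 ≤ (a : ℤ) * Q.ord u := mul_le_mul_of_nonneg_left (by omega) (by omega)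
        rcases le_total (-(Q.ord z - (a : ℤ) * Q.ord u)) 0 with h5 | h5
        · rw [max_eq_right h5]
          omega
        · rw [max_eq_left h5]
          omega
      · rw [Finsupp.single_eq_of_ne (Ne.symm hPQ)]
        rcases le_total (-(P.ord z - (a : ℤ) * P.ord u)) 0 with h5 | h5
        · rw [max_eq_right h5]
          omega
        · rw [max_eq_left h5]
          omega
  have h1 := degree_mono hle
  rw [map_add, Divisor.degree_single, RED.deg_eq_one, map_nsmul, DR.Abs.degree_poleDiv_inv hu0,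
    nsmul_eq_mul] at h1
  simpa using h1

end Fermat.Agent.MR.PLC.SP
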