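import Fermat.Agent.S33.GalP.Perm
import Fermat.Agent.S33.Cover.GoingDown
import Fermat.Agent.S36.Abs.Genus

/-!
# MR / PLC / SP : the polar divisor of `(v ^ a)⁻¹` (LEAF SP-2a)
-/

set_option autoImplicit false
set_option linter.unusedSectionVars false

noncomputable section

namespace Fermat.Agent.MR.PLC.SP

open AlgebraicCurve Fermat.Agent.Lib.RR Fermat.Agent.GAL Fermat.Agent.GAL.RED Fermat.Agent.DR.Abs
  Fermat.Agent.S33.Cover Fermat.Agent.S33.GalP

variable {κ L : Type*} [Field κ] [Field L] [Algebra κ L] [IsFF κ L] [IsAlgClosed κ]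

/-- LEAF SP-2a.  `deg ((v ^ a)⁻¹)_∞ = a deg (v)_∞` and `(v ^ a)⁻¹` is not constant if `v` is not constant, `a > 0`.
PROOF.  `DR.Conc.degree_poleDiv_inv`, `DR.Abs.poleBound_poleDiv_pow`, `map_nsmul`, `nsmul_eq_mul`.  Non constant: `v` has a pole `P` (`mem_range_of_ord_nonneg` : if all the orders are `≥ 0` then
`v` is constant); `ord_P (v ^ a)⁻¹ = - a ord_P v > 0` (`Place.ord_inv`, `ord_pow`) but a constant has order `0` (`ord_algebraMap`). -/
theorem degree_poleDiv_inv_pow {v : L} (hv : v ∉ Set.range (algebraMap κ L)) {a : ℕ} (ha : 0 < a) :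
    (v ^ a)⁻¹ ∉ Set.range (algebraMap κ L) ∧
      Divisor.degree (poleDiv (K := κ) (v ^ a)⁻¹) = a * Divisor.degree (poleDiv (K := κ) v) := by
  have hv0 : v ≠ 0 := by
    rintro rfl
    exact hv ⟨0, map_zero _⟩
  constructor
  · rintro ⟨c, hc⟩
    apply hv
    apply mem_range_of_ord_nonneg
    intro P
    have h1 : P.ord (v ^ a)⁻¹ = 0 := by rw [← hc, ord_algebraMap]
    rw [P.ord_inv, ord_pow] at h1
    have h2 : (a : ℤ) * P.ord v = 0 := by omega
    rcases mul_eq_zero.1 h2 with h | h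
    · omega
    · omega
  · rw [Fermat.Agent.DR.Abs.degree_poleDiv_inv (pow_ne_zero a hv0), poleBound_poleDiv_pow,
      map_nsmul, nsmul_eq_mul]

end Fermat.Agent.MR.PLC.SP
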