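import Fermat.Agent.MR.PLC.SP.Deg
import Fermat.Agent.MR.PLC.SP.DegInv

/-!
# MR / PLC / SP : integrality of the values of the regular integral functions (LEAF SP-2)
-/

set_option autoImplicit false
set_option linter.unusedSectionVars false

noncomputable section

namespace Fermat.Agent.MR.PLC.SP

open AlgebraicCurve Fermat.Agent.Lib.RR Fermat.Agent.GAL Fermat.Agent.GAL.RED Fermat.Agent.DR.Abs
  Fermat.Agent.S33.Cover Fermat.Agent.S33.GalP

variable {K E k : Type*} [Field K] [Field E] [Algebra K E] [Field k] {Ω : Type*} {Fb : Ω → Type*}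
  [∀ w, Field (Fb w)] [∀ w, Algebra k (Fb w)] [IsFF K E] [IsAlgClosed K] [∀ w, IsFF k (Fb w)]
  [IsAlgClosed k] [Fintype Ω] {T : MultiRed K E k Fb} {x : E}

/-- LEAF SP-2.  **Integrality of the values.**
PROOF (by contradiction).  `c := ev Q y ∉ A`; so `c ≠ 0`, `c⁻¹ ∈ A` (`T.A.mem_or_inv_mem`), and `c⁻¹` is small: `T.red_smul_of_small`.
`obtain ⟨hyO, a, hyL⟩ := hy`.  `z := 1 - c⁻¹ • y`.  `z ∈ T.O`, `T.red z = 1` (`T.red_sub`, `T.red_one`, `T.red_smul_of_small`), so `z ≠ 0`.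
`0 ≤ Q.ord y` (`(isReg_iff T x y).1`), `ev Q z = 1 - c⁻¹ * c = 0` (`ev_sub`, `ev_one`, `ev_smul`, `ord_smul_nonneg`), so `0 < Q.ord z` (`ev_eq_zero_iff`).
`b := ev Q x`, `u := x - algebraMap K E b`; `poleDiv u = poleDiv x` (`S36.Abs.genus_poleDiv_sub_const`); `u ∈ T.O`, `red_w u = red_w x - algebraMap (redA b)` is not constant (`hG.nonconst`), `u ≠ 0`,
`0 < Q.ord u` (`ev_spec Q hQ`).  `z ∈ L((a + 1) • poleDiv u)` : `1` and `y` are in it (`riemannRochSpace` is monotone: grep `riemannRochSpace_mono`/`rr_mono`; or use `poleBound_mem_L_iff`).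
`g := z / u ^ (a + 1)`.  `red_w g = (red_w u ^ (a + 1))⁻¹` (`RedData.red_div`/`red_mul` + `red_inv` + `red_pow`).
`T.sum_degree_poleDiv_red_le hG.sep g _` + `degree_poleDiv_inv_pow` + `genus_poleDiv_sub_const` (on `Fb w`) + `hG.deg` + `degree_poleDiv_div_lt` : `(a+1) d ≤ (a+1) d - 1`. -/
theorem ev_mem_A [Nonempty Ω] (hG : Good T x) (Q : Place K E) (hQ : 0 ≤ Q.ord x)
    (hb : ev Q x ∈ T.A) {y : E} (hy : IsReg T x y) : ev Q y ∈ T.A := by
  by_contra hc
  have hyQ : 0 ≤ Q.ord y := ((isReg_iff T x y).1 hy).2 Q hQ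
  obtain ⟨hyO, a, hyL⟩ := hy
  generalize hcdef : ev Q y = c at hc
  have hc0 : c ≠ 0 := fun h => hc (h ▸ T.A.zero_mem)
  have hci : c⁻¹ ∈ T.A := (T.A.mem_or_inv_mem c).resolve_left hc
  have hci' : (c⁻¹)⁻¹ ∉ T.A := by rwa [inv_inv]
  have hsO : c⁻¹ • y ∈ T.O := T.smul_mem hci hyO
  obtain ⟨z, hzdef⟩ : ∃ z, z = 1 - c⁻¹ • y := ⟨_, rfl⟩
  have hzO : z ∈ T.O := hzdef ▸ T.O.sub_mem T.O.one_mem hsO
  have hzred : T.red z = 1 := by
    rw [hzdef, T.red_sub T.O.one_mem hsO, T.red_one, T.red_smul_of_small hci hci' hyO, sub_zero]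
  have hz0 : z ≠ 0 := by
    intro h0
    obtain ⟨w⟩ := ‹Nonempty Ω›
    have h1 := congrFun hzred w
    rw [h0, T.red_zero] at h1
    exact zero_ne_one h1
  have hsQ : 0 ≤ Q.ord (c⁻¹ • y) := ord_smul_nonneg Q _ hyQ
  have h1Q : 0 ≤ Q.ord (1 : E) := by rw [Place.ord_one]
  have hzQ0 : 0 ≤ Q.ord z := by
    rw [hzdef, sub_eq_add_neg]
    exact ord_add_nonneg Q h1Q (by rw [ord_neg]; exact hsQ)
  have hzev : ev Q z = 0 := by
    rw [hzdef, ev_sub Q h1Q hsQ, ev_one, ev_smul Q _ hyQ, hcdef, inv_mul_cancel₀ hc0, sub_self]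
  have hzQ : 0 < Q.ord z := ((ev_eq_zero_iff Q hzQ0).1 hzev).resolve_left hz0
  -- the coordinate centred at `Q`
  obtain ⟨u, hudef⟩ : ∃ u, u = x - algebraMap K E (ev Q x) := ⟨_, rfl⟩
  have hpu : poleDiv (K := K) u = poleDiv (K := K) x := by
    rw [hudef]
    exact S36.Abs.genus_poleDiv_sub_const x _
  have hxO : x ∈ T.O := fun w =>
    (T.R w).mem_of_red_ne_zero (fun h => hG.nonconst w ⟨0, by rw [h, map_zero]⟩)
  have huO : u ∈ T.O := hudef ▸ T.O.sub_mem hxO (T.algebraMap_mem hb)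
  have hured : ∀ w, (T.R w).red u
      = (T.R w).red x - algebraMap k (Fb w) (T.redA (ev Q x)) := by
    intro w
    rw [hudef, (T.R w).red_sub (hxO w) (T.algebraMap_mem hb w), (T.R w).red_algebraMap',
      T.redA_eq]
  have hunc : ∀ w, (T.R w).red u ∉ Set.range (algebraMap k (Fb w)) := by
    rintro w ⟨e, he⟩
    apply hG.nonconst w
    refine ⟨e + T.redA (ev Q x), ?_⟩
    rw [map_add, he, hured w, sub_add_cancel]
  have hu0 : u ≠ 0 := by
    intro h0
    obtain ⟨w⟩ := ‹Nonempty Ω›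
    exact hunc w ⟨0, by rw [map_zero, h0, (T.R w).red_zero]⟩
  have huQ : 0 < Q.ord u := by
    rcases ev_spec Q hQ with h | h
    · exact absurd (by rw [hudef, sub_eq_zero]; exact h) hu0
    · rw [hudef]; exact h
  have hzL : z ∈ riemannRochSpace ((a + 1) • poleDiv (K := K) u) := by
    rw [hpu]
    have hnn : 0 ≤ poleDiv (K := K) x := poleBound_poleDiv_nonneg x
    have hle : a • poleDiv (K := K) x ≤ (a + 1) • poleDiv (K := K) x := by
      rw [add_smul, one_smul]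
      exact le_add_of_nonneg_right hnn
    have h1L : (1 : E) ∈ riemannRochSpace ((a + 1) • poleDiv (K := K) x) :=
      DR.Abs.one_mem_L (smul_nonneg (Nat.zero_le _) hnn)
    rw [hzdef]
    exact Submodule.sub_mem _ h1L (Submodule.smul_mem _ _ (DR.Abs.L_mono hle hyL))
  have hg := degree_poleDiv_div_lt Q hu0 huQ hz0 hzL hzQ (Nat.succ_pos a)
  have hgred : ∀ w, (T.R w).red (z / u ^ (a + 1)) = ((T.R w).red u ^ (a + 1))⁻¹ := by
    intro w
    have hune : (T.R w).red u ≠ 0 := fun h => hunc w ⟨0, by rw [h, map_zero]⟩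
    have hpne : (T.R w).red (u ^ (a + 1)) ≠ 0 := by
      rw [(T.R w).red_pow]
      exact pow_ne_zero _ hune
    rw [(T.R w).red_div (hzO w) hpne, (T.R w).red_pow,
      show (T.R w).red z = 1 from congrFun hzred w, one_div]
  have hsum := T.sum_degree_poleDiv_red_le hG.sep (z / u ^ (a + 1)) (fun w => by
    rw [hgred w]
    exact (degree_poleDiv_inv_pow (hunc w) (Nat.succ_pos a)).1)
  have hsum2 : ∑ w, Divisor.degree (poleDiv (K := k) ((T.R w).red (z / u ^ (a + 1))))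
      = ((a + 1 : ℕ) : ℤ) * Divisor.degree (poleDiv (K := K) u) := by
    rw [hpu, hG.deg, Finset.mul_sum]
    refine Finset.sum_congr rfl fun w _ => ?_
    rw [hgred w, (degree_poleDiv_inv_pow (hunc w) (Nat.succ_pos a)).2, hured w,
      S36.Abs.genus_poleDiv_sub_const]
  rw [hsum2] at hsum
  omega

end Fermat.Agent.MR.PLC.SP
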