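import Fermat.Agent.MR.PLC.SP.Integral

/-!
# MR / PLC / SP : the specialisation of a point (LEAF SP-3)
-/

set_option autoImplicit false
set_option linter.unusedSectionVars false

noncomputable section

namespace Fermat.Agent.MR.PLC.SP

open AlgebraicCurve Fermat.Agent.Lib.RR Fermat.Agent.GAL Fermat.Agent.GAL.RED Fermat.Agent.DR.Abs
  Fermat.Agent.S33.Cover Fermat.Agent.S33.GalP

variable {K E k : Type*} [Field K] [Field E] [Algebra K E] [Field k] {Ω : Type*} {Fb : Ω → Type*}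
  [∀ w, Field (Fb w)] [∀ w, Algebra k (Fb w)] [IsFF K E] [IsAlgClosed K] [∀ w, IsFF k (Fb w)]
  [IsAlgClosed k] [Fintype Ω] {T : MultiRed K E k Fb} {x : E}

/-- The specialisation of the point `Q`. -/
def lam (T : MultiRed K E k Fb) (Q : Place K E) (y : E) : k := T.redA (ev Q y)

/-- LEAF SP-3 (five short lemmas `lam_add`, `lam_mul`, `lam_const`, `lam_prod`, `lam_eq_zero`).  `unfold lam`; `0 ≤ Q.ord y` from `(isReg_iff T x y).1 hy`; `ev_add`; `ev_mem_A`;
`T.redA` is additive on `T.A` : choose a vertex `w` (`Nonempty Ω` is a hypothesis), `← T.redA_eq w`, `(T.R w).redA_add` with `(T.mem_A_iff w).2`. -/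
theorem lam_add [Nonempty Ω] (hG : Good T x) (Q : Place K E) (hQ : 0 ≤ Q.ord x)
    (hb : ev Q x ∈ T.A) {y z : E} (hy : IsReg T x y) (hz : IsReg T x z) :
    lam T Q (y + z) = lam T Q y + lam T Q z := by
  obtain ⟨w⟩ := ‹Nonempty Ω›
  unfold lam
  rw [ev_add Q (((isReg_iff T x y).1 hy).2 Q hQ) (((isReg_iff T x z).1 hz).2 Q hQ),
    ← T.redA_eq w, ← T.redA_eq w, ← T.redA_eq w]
  exact (T.R w).redA_add ((T.mem_A_iff w).2 (ev_mem_A hG Q hQ hb hy))
    ((T.mem_A_iff w).2 (ev_mem_A hG Q hQ hb hz))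

theorem lam_mul [Nonempty Ω] (hG : Good T x) (Q : Place K E) (hQ : 0 ≤ Q.ord x)
    (hb : ev Q x ∈ T.A) {y z : E} (hy : IsReg T x y) (hz : IsReg T x z) :
    lam T Q (y * z) = lam T Q y * lam T Q z := by
  obtain ⟨w⟩ := ‹Nonempty Ω›
  unfold lam
  rw [ev_mul Q (((isReg_iff T x y).1 hy).2 Q hQ) (((isReg_iff T x z).1 hz).2 Q hQ),
    ← T.redA_eq w, ← T.redA_eq w, ← T.redA_eq w]
  exact (T.R w).redA_mul ((T.mem_A_iff w).2 (ev_mem_A hG Q hQ hb hy))
    ((T.mem_A_iff w).2 (ev_mem_A hG Q hQ hb hz))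

theorem lam_const (Q : Place K E) (a : K) : lam T Q (algebraMap K E a) = T.redA a := by
  unfold lam
  rw [ev_algebraMap]

theorem lam_one [Nonempty Ω] (Q : Place K E) : lam T Q 1 = 1 := by
  rw [← map_one (algebraMap K E), lam_const, T.redA_one]

/-- (`Finset.induction_on`, `lam_mul`, `IsReg.prod`, `lam_one`; copy `S33.Cover.bval_prod`.) -/
theorem lam_prod [Nonempty Ω] (hG : Good T x) (Q : Place K E) (hQ : 0 ≤ Q.ord x)
    (hb : ev Q x ∈ T.A) {κ : Type*} (s : Finset κ) (y : κ → E) (hy : ∀ c ∈ s, IsReg T x (y c)) :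
    lam T Q (∏ c ∈ s, y c) = ∏ c ∈ s, lam T Q (y c) := by
  classical
  induction s using Finset.induction_on with
  | empty => simpa using lam_one (T := T) Q
  | insert a s ha ih =>
    rw [Finset.prod_insert ha, Finset.prod_insert ha,
      lam_mul hG Q hQ hb (hy a (Finset.mem_insert_self a s))
        (IsReg.prod _ _ fun j hj => hy j (Finset.mem_insert_of_mem hj)),
      ih fun j hj => hy j (Finset.mem_insert_of_mem hj)]

/-- **The specialisation kills the functions with reduction `0`.**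
PROOF.  `y = 0` : `ev_zero`, `redA 0 = 0` (`← T.redA_eq w`, `RedData.redA_zero`).  Else `hC.exists_small hy.1 h0 hne` : `y = c • y'`, `c ∈ A`, `c⁻¹ ∉ A`, `y' ∈ T.O`.
`y' = c⁻¹ • y` is regular (`isReg_iff`; `ord_smul_nonneg`).  `ev Q y = c * ev Q y'` (`ev_smul`), `ev Q y' ∈ A` (`ev_mem_A`), `redA (c * _) = redA c * _` (`RedData.redA_mul`) and `redA c = 0`
(else `T.redA_ne_zero_iff` gives `c⁻¹ ∈ A`). -/
theorem lam_eq_zero [Nonempty Ω] (hG : Good T x) (hC : T.IsCartesian) (Q : Place K E)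
    (hQ : 0 ≤ Q.ord x) (hb : ev Q x ∈ T.A) {y : E} (hy : IsReg T x y) (h0 : T.red y = 0) :
    lam T Q y = 0 := by
  obtain ⟨w⟩ := ‹Nonempty Ω›
  by_cases hne : y = 0
  · unfold lam
    rw [hne, ev_zero, ← T.redA_eq w]
    exact (T.R w).redA_zero
  obtain ⟨c, y', hc0, hcA, hcinv, hy'O, -, rfl⟩ := hC.exists_small hy.1 h0 hne
  have hreg : IsReg T x y' := by
    rw [isReg_iff]
    refine ⟨hy'O, fun P hP => ?_⟩
    have h1 := ord_smul_nonneg P c⁻¹ (((isReg_iff T x (c • y')).1 hy).2 P hP)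
    rwa [smul_smul, inv_mul_cancel₀ hc0, one_smul] at h1
  have hc : T.redA c = 0 := by
    by_contra h
    exact hcinv (T.redA_ne_zero_iff.1 h).2.2
  unfold lam
  rw [ev_smul Q c (((isReg_iff T x y').1 hreg).2 Q hQ), ← T.redA_eq w,
    (T.R w).redA_mul ((T.mem_A_iff w).2 hcA) ((T.mem_A_iff w).2 (ev_mem_A hG Q hQ hb hreg)),
    T.redA_eq w, hc, zero_mul]

/-- **The specialisation of `Q` lies on a component.** -/
theorem exists_vertex [Nonempty Ω] (hG : Good T x) (hC : T.IsCartesian) (Q : Place K E)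
    (hQ : 0 ≤ Q.ord x) (hb : ev Q x ∈ T.A) :
    ∃ w : Ω, ∀ y : E, IsReg T x y → (T.R w).red y = 0 → lam T Q y = 0 := by
  classical
  by_contra hcon
  push Not at hcon
  choose y hy hy0 hyl using hcon
  have h1 : IsReg T x (∏ w, y w) := IsReg.prod _ _ fun w _ => hy w
  have h2 : T.red (∏ w, y w) = 0 := by
    funext w
    rw [T.red_apply, ← Finset.mul_prod_erase Finset.univ y (Finset.mem_univ w),
      (T.R w).red_mul ((hy w).1 w)
        ((IsReg.prod (T := T) (x := x) _ _ fun w' _ => hy w').1 w), hy0, zero_mul]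
    rfl
  have h3 := lam_eq_zero hG hC Q hQ hb h1 h2
  rw [lam_prod hG Q hQ hb _ _ fun w _ => hy w, Finset.prod_eq_zero_iff] at h3
  obtain ⟨w, -, hw⟩ := h3
  exact hyl w hw

end Fermat.Agent.MR.PLC.SP
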